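import Fermat.Agent.S42x.Gal.H19_HeckeGal
import Fermat.Agent.S42x.Asm.Defs

/-!
# W7 (GAL') (helper19): `Asm.StHeckeGal N`, verbatim, hypothesis-free
-/

set_option autoImplicit false

open AlgebraicCurve ModularCurve

namespace Fermat.Agent.S42x.Gal.H19

/-- **(GAL')** `Asm.StHeckeGal N`: the Hecke operators commute with the Galois action on
`J₀(N)(ℚ̄)`. -/
theorem stHeckeGal (N : ℕ) [NeZero N] : Fermat.Agent.S42x.Asm.StHeckeGal N :=
  fun ℓ σ x => h19_heckeOperatorBar_galois N ℓ σ x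

end Fermat.Agent.S42x.Gal.H19
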