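import Mathlib
import Fermat.Prelude.Def_AlgebraicCurve_Correspondence

/-!
# W7 (GAL'), part 1 (helper19): pull-back and push-forward of divisors commute with semilinear
automorphisms

`F'/F` an integral extension of function fields over `K`, `g` a semilinear automorphism of `F`,
`g'` one of `F'`, compatible: `algebraMap (g • x) = g' • algebraMap x`. Then

* `h19_restrict_smul` : `(g' • w).restrict F = g • w.restrict F`;
* `h19_ramificationIndex_smul` : `e(g' • w) = e(w)`;
* `h19_inertiaDeg_smul` : `f(g' • w) = f(w)` (places of `F` of non-zero degree);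
* `h19_pullback_smul` : `pullback (g • D) = g' • pullback D`;
* `h19_pushforward_smul` : `pushforward (g' • D') = g • pushforward D'`;
* `h19_pullbackAlong_smul`, `h19_pushforwardAlong_smul`, `h19_correspondence_smul` : the same
  along `K`-algebra maps.
-/

set_option autoImplicit false
set_option linter.style.haveILetI false
set_option linter.unusedSectionVars false

open AlgebraicCurve

open scoped Pointwise

noncomputable section

namespace Fermat.Agent.S42x.Gal.H19

section Tower

variable {K F F' : Type*} [Field K] [Field F] [Field F'] [Algebra K F] [Algebra K F']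
  [Algebra F F'] [IsScalarTower K F F'] [Algebra.IsIntegral F F']
variable (g : SemilinearAut K F) (g' : SemilinearAut K F')
  (hc : ∀ x : F, algebraMap F F' (g • x) = g' • algebraMap F F' x)

include hc in
theorem h19_compat_inv (x : F) : algebraMap F F' (g⁻¹ • x) = g'⁻¹ • algebraMap F F' x := by
  have h := hc (g⁻¹ • x)
  rw [smul_inv_smul] at h
  rw [h, inv_smul_smul]

include hc in
/-- restriction of places is equivariant. -/
theorem h19_restrict_smul (w : Place K F') : (g' • w).restrict F = g • w.restrict F := by
  apply Place.ext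
  ext f
  rw [Place.restrict_toValuationSubring, ValuationSubring.mem_comap,
    SemilinearAut.smul_toValuationSubring, SemilinearAut.smul_toValuationSubring,
    ValuationSubring.mem_pointwise_smul_iff_inv_smul_mem,
    ValuationSubring.mem_pointwise_smul_iff_inv_smul_mem, Place.restrict_toValuationSubring,
    ValuationSubring.mem_comap, h19_compat_inv g g' hc]

include hc in
/-- the ramification index is invariant. -/
theorem h19_ramificationIndex_smul (w : Place K F') :
    (g' • w).ramificationIndex F = w.ramificationIndex F := by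
  -- a uniformiser of `w.restrict F`
  obtain ⟨π, hπ⟩ := IsDiscreteValuationRing.exists_irreducible (w.restrict F).toValuationSubring
  have h1 : (w.restrict F).ord (π : F) = 1 := (w.restrict F).ord_coe_irreducible hπ
  have h2 : w.ord (algebraMap F F' (π : F)) = w.ramificationIndex F := by
    rw [w.ord_restrict, h1, mul_one]
  have h3 : (g' • w).ord (algebraMap F F' (g • (π : F))) = w.ramificationIndex F := by
    rw [hc, SemilinearAut.ord_smul, h2]
  have h4 : (g' • w).ord (algebraMap F F' (g • (π : F))) = (g' • w).ramificationIndex F := by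
    rw [(g' • w).ord_restrict, h19_restrict_smul g g' hc, SemilinearAut.ord_smul, h1, mul_one]
  have h5 : ((g' • w).ramificationIndex F : ℤ) = w.ramificationIndex F := by
    rw [← h4, h3]
  exact_mod_cast h5

include hc in
/-- the inertia degree is invariant (places of non-zero degree). -/
theorem h19_inertiaDeg_smul (hdeg : ∀ v : Place K F, v.deg ≠ 0) (w : Place K F') :
    (g' • w).inertiaDeg F = w.inertiaDeg F := by
  have h1 := (g' • w).deg_restrict_mul_inertiaDeg (F := F)
  have h2 := w.deg_restrict_mul_inertiaDeg (F := F)
  rw [h19_restrict_smul g g' hc, SemilinearAut.deg_smul, SemilinearAut.deg_smul, ← h2] at h1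
  exact Nat.eq_of_mul_eq_mul_left (Nat.pos_of_ne_zero (hdeg _)) h1

include hc in
/-- **pull-back of divisors is equivariant.** -/
theorem h19_pullback_smul [HasPrincipalDivisors K F'] (D : Divisor K F) :
    Divisor.pullback F' (g • D) = g' • Divisor.pullback F' D := by
  ext w
  rw [Divisor.pullback_apply, SemilinearAut.divisor_smul_apply, SemilinearAut.divisor_smul_apply,
    Divisor.pullback_apply]
  have h1 : (g'⁻¹ • w).restrict F = g⁻¹ • w.restrict F :=
    h19_restrict_smul g⁻¹ g'⁻¹ (h19_compat_inv g g' hc) w
  have h2 : (g'⁻¹ • w).ramificationIndex F = w.ramificationIndex F :=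
    h19_ramificationIndex_smul g⁻¹ g'⁻¹ (h19_compat_inv g g' hc) w
  rw [h1, h2]

include hc in
/-- **push-forward of divisors is equivariant.** -/
theorem h19_pushforward_smul (hdeg : ∀ v : Place K F, v.deg ≠ 0) (D : Divisor K F') :
    Divisor.pushforward F (g' • D) = g • Divisor.pushforward F D := by
  induction D using Finsupp.induction with
  | zero => simp
  | single_add w n D _ _ ih =>
    rw [smul_add, map_add, map_add, smul_add, ih, SemilinearAut.smul_single,
      Divisor.pushforward_single, Divisor.pushforward_single, SemilinearAut.smul_single,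
      h19_restrict_smul g g' hc, h19_inertiaDeg_smul g g' hc hdeg]

end Tower

section Along

variable {K F F' : Type*} [Field K] [Field F] [Field F'] [Algebra K F] [Algebra K F']
variable (g : SemilinearAut K F) (g' : SemilinearAut K F')

/-- pull-back along a `K`-algebra map is equivariant. -/
theorem h19_pullbackAlong_smul [HasPrincipalDivisors K F'] (φ : F →ₐ[K] F')
    (hφ : φ.toRingHom.IsIntegral) (hc : ∀ x : F, φ (g • x) = g' • φ x) (D : Divisor K F) :
    Divisor.pullbackAlong φ hφ (g • D) = g' • Divisor.pullbackAlong φ hφ D := by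
  letI := algebraAlong φ
  haveI := isScalarTower_along φ
  haveI := isIntegral_along φ hφ
  exact h19_pullback_smul g g' hc D

/-- push-forward along a `K`-algebra map is equivariant. -/
theorem h19_pushforwardAlong_smul (φ : F →ₐ[K] F')
    (hφ : φ.toRingHom.IsIntegral) (hc : ∀ x : F, φ (g • x) = g' • φ x)
    (hdeg : ∀ v : Place K F, v.deg ≠ 0) (D : Divisor K F') :
    Divisor.pushforwardAlong φ hφ (g' • D) = g • Divisor.pushforwardAlong φ hφ D := by
  letI := algebraAlong φ
  haveI := isScalarTower_along φ
  haveI := isIntegral_along φ hφ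
  exact h19_pushforward_smul g g' hc hdeg D

/-- **a correspondence is equivariant.** -/
theorem h19_correspondence_smul [HasPrincipalDivisors K F'] (φ ψ : F →ₐ[K] F')
    (hφ : φ.toRingHom.IsIntegral) (hψ : ψ.toRingHom.IsIntegral)
    (hcφ : ∀ x : F, φ (g • x) = g' • φ x) (hcψ : ∀ x : F, ψ (g • x) = g' • ψ x)
    (hdeg : ∀ v : Place K F, v.deg ≠ 0) (D : Divisor K F) :
    Divisor.correspondence φ ψ hφ hψ (g • D) = g • Divisor.correspondence φ ψ hφ hψ D := by
  rw [Divisor.correspondence_apply, Divisor.correspondence_apply,
    h19_pullbackAlong_smul g g' φ hφ hcφ, h19_pushforwardAlong_smul g g' ψ hψ hcψ hdeg]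

/-- **a correspondence on `Pic⁰` is equivariant.** -/
theorem h19_pic0_correspondence_smul [HasPrincipalDivisors K F'] (φ ψ : F →ₐ[K] F')
    (hφ : φ.toRingHom.IsIntegral) (hψ : ψ.toRingHom.IsIntegral)
    (hFI : FundamentalIdentityAlong K φ hφ) (hfin : FiniteAlong K ψ)
    (hN : NormFormulaAlong K ψ hfin)
    (hcφ : ∀ x : F, φ (g • x) = g' • φ x) (hcψ : ∀ x : F, ψ (g • x) = g' • ψ x)
    (hdeg : ∀ v : Place K F, v.deg ≠ 0) (x : Pic0 K F) :
    Pic0.correspondence φ ψ hφ hψ hFI hfin hN (g • x) =
      g • Pic0.correspondence φ ψ hφ hψ hFI hfin hN x := by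
  obtain ⟨D, rfl⟩ := Pic0.mk_surjective x
  rw [SemilinearAut.pic0_smul_mk, Pic0.correspondence_mk, Pic0.correspondence_mk,
    SemilinearAut.pic0_smul_mk]
  congr 1
  apply Subtype.ext
  rw [Pic0.coe_degZeroCorrespondence, SemilinearAut.coe_degZeroSMulHom,
    SemilinearAut.coe_degZeroSMulHom, Pic0.coe_degZeroCorrespondence]
  exact h19_correspondence_smul g g' φ ψ hφ hψ hcφ hcψ hdeg D

end Along

end Fermat.Agent.S42x.Gal.H19
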