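import Fermat.Agent.S42x.Gal.H19_Equiv
import Fermat.Prelude.Def_ModularCurve_HeckeModule
import Fermat.Agent.S37x.FFL.H9_FFL

/-!
# W7 (GAL') (helper19): the Hecke operators commute with the Galois action on `J₀(N)`

* `h19_alpha_compat`, `h19_beta_compat` : the degeneracy maps `α, β : F_N → F_{Nℓ}` commute with
  the coefficientwise action (any field `L`);
* `h19_heckeOperatorAlong_galois` : `T_ℓ (σ • x) = σ • T_ℓ x` on `Pic⁰(F_N)` over `L`, as soon as
  the places of `F_N` have non-zero degree;
* `h19_heckeOperatorBar_galois` : **`heckeOperatorBar N ℓ (σ • x) = σ • heckeOperatorBar N ℓ x`**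
  on `JZero N`;
* `h19_smulCommClass_of_commute` : the `SMulCommClass` of the frozen statement `S37`, from
  `HeckeOperatorsCommuteBar N`.
-/

set_option autoImplicit false
set_option linter.style.haveILetI false
set_option linter.unusedSectionVars false
set_option synthInstance.maxHeartbeats 400000
set_option maxHeartbeats 1000000

open AlgebraicCurve ModularCurve HahnSeries

noncomputable section

namespace Fermat.Agent.S42x.Gal.H19

section AnyField

variable {L : Type*} [Field L] [Algebra ℚ L] (N ℓ : ℕ) [NeZero N] [NeZero ℓ]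

theorem h19_coeffMap_qExpand {R S : Type*} [CommRing R] [CommRing S] (f : R →+* S) (n : ℕ)
    [NeZero n] (x : LaurentSeries R) : coeffMap f (qExpand R n x) = qExpand S n (coeffMap f x) := by
  ext k
  by_cases hk : (n : ℤ) ∣ k
  · obtain ⟨m, rfl⟩ := hk
    rw [coeffMap_coeff, qExpand_coeff_mul, qExpand_coeff_mul, coeffMap_coeff]
  · rw [coeffMap_coeff, qExpand_coeff_of_not_dvd n _ hk, qExpand_coeff_of_not_dvd n _ hk,
      map_zero]

/-- `α` commutes with the coefficientwise action. -/
theorem h19_alpha_compat (σ : L ≃ₐ[ℚ] L) (x : laurentBaseChange L (modularFunctionFieldFull N)) :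
    heckeAlphaBar L N ℓ (arithmeticGalois (modularFunctionFieldFull N) σ • x) =
      arithmeticGalois (modularFunctionFieldFull (N * ℓ)) σ • heckeAlphaBar L N ℓ x := by
  apply Subtype.ext
  rw [coe_heckeAlphaBar, coe_arithmeticGalois_smul, coe_arithmeticGalois_smul, coe_heckeAlphaBar]

/-- `β` commutes with the coefficientwise action. -/
theorem h19_beta_compat (σ : L ≃ₐ[ℚ] L) (x : laurentBaseChange L (modularFunctionFieldFull N)) :
    heckeBetaBar L N ℓ (arithmeticGalois (modularFunctionFieldFull N) σ • x) =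
      arithmeticGalois (modularFunctionFieldFull (N * ℓ)) σ • heckeBetaBar L N ℓ x := by
  apply Subtype.ext
  rw [coe_heckeBetaBar, coe_arithmeticGalois_smul, coe_arithmeticGalois_smul, coe_heckeBetaBar,
    h19_coeffMap_qExpand]

/-- **`T_ℓ` commutes with the Galois action** on `Pic⁰(F_N)` over any field `L` over which the
places of `F_N` have non-zero degree. -/
theorem h19_heckeOperatorAlong_galois
    (hdeg : ∀ v : Place L (laurentBaseChange L (modularFunctionFieldFull N)), v.deg ≠ 0)
    (σ : L ≃ₐ[ℚ] L) (x : Pic0 L (laurentBaseChange L (modularFunctionFieldFull N))) :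
    heckeOperatorAlong L N ℓ (σ • x) = σ • heckeOperatorAlong L N ℓ x := by
  by_cases h : HeckeInputsAlong L N ℓ
  · obtain ⟨hα, hβ, hP, hfin, hFI, hN⟩ := h
    rw [heckeOperatorAlong_eq hα hβ hFI hfin hN, galois_smul_pic0_def, galois_smul_pic0_def]
    exact h19_pic0_correspondence_smul _ _ (heckeBetaBar L N ℓ) (heckeAlphaBar L N ℓ) hβ hα
      hFI hfin hN (h19_beta_compat N ℓ σ) (h19_alpha_compat N ℓ σ) hdeg x
  · rw [heckeOperatorAlong_of_not h]
    simp

end AnyField

section Bar

variable (N : ℕ) [NeZero N]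

/-- **(GAL')** the Hecke operators commute with the Galois action on `J₀(N)(ℚ̄)`. -/
theorem h19_heckeOperatorBar_galois (ℓ : Nat.Primes)
    (σ : AlgebraicClosure ℚ ≃ₐ[ℚ] AlgebraicClosure ℚ) (x : JZero N) :
    heckeOperatorBar N ℓ (σ • x) = σ • heckeOperatorBar N ℓ x := by
  haveI : NeZero (ℓ : ℕ) := ⟨ℓ.2.ne_zero⟩
  rw [heckeOperatorBar_apply, heckeOperatorBar_apply]
  exact h19_heckeOperatorAlong_galois N ℓ
    (fun v => by
      rw [Fermat.Agent.S37x.FFL.H9.h9_deg_eq_one N v]
      exact one_ne_zero) σ x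

end Bar

end Fermat.Agent.S42x.Gal.H19
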